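/-
TW-FLAT / FLAT-SS-COUNT (row 335), part (S3) (helper33): the level calculus over
`F = Qb^{G_F}`, `G_F = {σ ∈ I | σ ϖ = ϖ}`, `ϖ^(p²−1) = −p`.  This file: vocabulary.

* `res P x` : the residue class of `x ∈ P` (junk value `0` outside `P`);
* `fixF P ϖ : Subfield Qb` : the elements fixed by every `σ ∈ I` with `σ ϖ = ϖ`;
* `LevGE P ϖ j u` : `u ∈ 1 + ϖ^j O_F`;
* `lc P ϖ j u` : the leading coefficient `(u − 1)/ϖ^j mod 𝔪`;
* multiplicativity of levels and additivity of `lc`.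
-/
import Mathlib
import Fermat.Agent.TW.Flat.Interfaces

set_option autoImplicit false
set_option linter.unusedSectionVars false

namespace Fermat.Agent.TW.Flat.SSLev

open Fermat.Agent.TW.Flat

local notation "Qb" => AlgebraicClosure ℚ

/-! ### Valuation bookkeeping -/

section Val

variable (P : ValuationSubring Qb)

theorem val_pos {x : Qb} (hx : x ≠ 0) : 0 < P.valuation x :=
  (Valuation.pos_iff _).mpr hx

theorem div_pow_mem_iff {ϖ : Qb} (h0 : ϖ ≠ 0) (x : Qb) (j : ℕ) :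
    x / ϖ ^ j ∈ P ↔ P.valuation x ≤ P.valuation ϖ ^ j := by
  rw [← P.valuation_le_one_iff, map_div₀, map_pow, div_le_one₀ (pow_pos (val_pos P h0) j)]

theorem div_pow_mem_nonunits_iff {ϖ : Qb} (h0 : ϖ ≠ 0) (x : Qb) (j : ℕ) :
    x / ϖ ^ j ∈ P.nonunits ↔ P.valuation x < P.valuation ϖ ^ j := by
  rw [P.mem_nonunits_iff, map_div₀, map_pow, div_lt_one₀ (pow_pos (val_pos P h0) j)]

theorem isPUnit_iff_val {z : Qb} : IsPUnit P z ↔ P.valuation z = 1 := by
  constructor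
  · rintro ⟨h0, h1, h2⟩
    rw [← P.valuation_le_one_iff] at h1 h2
    rw [map_inv₀] at h2
    refine le_antisymm h1 ?_
    have hpos := val_pos P h0
    rwa [inv_le_one₀ hpos] at h2
  · intro h
    have h0 : z ≠ 0 := by
      rintro rfl
      rw [map_zero] at h
      exact zero_ne_one h
    refine ⟨h0, (P.valuation_le_one_iff z).mp h.le, (P.valuation_le_one_iff _).mp ?_⟩
    rw [map_inv₀, h, inv_one]

theorem isPUnit_of_mem_of_not_mem_nonunits {z : Qb} (h1 : z ∈ P) (h2 : z ∉ P.nonunits) :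
    IsPUnit P z := by
  rw [isPUnit_iff_val]
  rw [P.mem_nonunits_iff, not_lt] at h2
  exact le_antisymm ((P.valuation_le_one_iff z).mpr h1) h2

theorem nonunits_subset {z : Qb} (h : z ∈ P.nonunits) : z ∈ P :=
  (P.valuation_le_one_iff z).mp (P.mem_nonunits_iff.mp h).le

theorem mul_mem_nonunits_left {x y : Qb} (hx : x ∈ P.nonunits) (hy : y ∈ P) :
    x * y ∈ P.nonunits := by
  rw [P.mem_nonunits_iff] at hx ⊢
  rw [map_mul]
  exact mul_lt_one_of_lt_of_le hx ((P.valuation_le_one_iff y).mpr hy)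

theorem mul_mem_nonunits_right {x y : Qb} (hx : x ∈ P) (hy : y ∈ P.nonunits) :
    x * y ∈ P.nonunits := by
  rw [mul_comm]
  exact mul_mem_nonunits_left P hy hx

theorem add_mem_nonunits {x y : Qb} (hx : x ∈ P.nonunits) (hy : y ∈ P.nonunits) :
    x + y ∈ P.nonunits := by
  rw [P.mem_nonunits_iff] at hx hy ⊢
  exact P.valuation.map_add_lt hx hy

theorem sub_mem_nonunits {x y : Qb} (hx : x ∈ P.nonunits) (hy : y ∈ P.nonunits) :
    x - y ∈ P.nonunits := by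
  rw [P.mem_nonunits_iff] at hx hy ⊢
  exact P.valuation.map_sub_lt hx hy

theorem neg_mem_nonunits {x : Qb} (hx : x ∈ P.nonunits) : -x ∈ P.nonunits := by
  rw [P.mem_nonunits_iff] at hx ⊢
  rwa [Valuation.map_neg]

theorem zero_mem_nonunits : (0 : Qb) ∈ P.nonunits := by
  rw [P.mem_nonunits_iff, map_zero]
  exact zero_lt_one

/-- `1 + 𝔪` consists of units. -/
theorem isPUnit_of_sub_one_mem_nonunits {u : Qb} (h : u - 1 ∈ P.nonunits) : IsPUnit P u := by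
  rw [isPUnit_iff_val]
  rw [P.mem_nonunits_iff] at h
  have e : u = 1 + (u - 1) := by ring
  rw [e, Valuation.map_add_eq_of_lt_left _ (by rwa [map_one]), map_one]

/-! ### Residues -/

open Classical in
/-- The residue class of `x` in the residue field of `P` (`0` if `x ∉ P`). -/
noncomputable def res (x : Qb) : IsLocalRing.ResidueField P :=
  if h : x ∈ P then IsLocalRing.residue P ⟨x, h⟩ else 0

theorem res_eq {x : Qb} (h : x ∈ P) : res P x = IsLocalRing.residue P ⟨x, h⟩ := dif_pos h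

theorem res_add {x y : Qb} (hx : x ∈ P) (hy : y ∈ P) : res P (x + y) = res P x + res P y := by
  rw [res_eq P hx, res_eq P hy, res_eq P (P.add_mem _ _ hx hy), ← map_add]
  rfl

theorem res_mul {x y : Qb} (hx : x ∈ P) (hy : y ∈ P) : res P (x * y) = res P x * res P y := by
  rw [res_eq P hx, res_eq P hy, res_eq P (P.mul_mem _ _ hx hy), ← map_mul]
  rfl

theorem res_neg {x : Qb} (hx : x ∈ P) : res P (-x) = -res P x := by
  rw [res_eq P hx, res_eq P (P.neg_mem _ hx), ← map_neg]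
  rfl

theorem res_sub {x y : Qb} (hx : x ∈ P) (hy : y ∈ P) : res P (x - y) = res P x - res P y := by
  rw [sub_eq_add_neg, res_add P hx (P.neg_mem _ hy), res_neg P hy, sub_eq_add_neg]

theorem res_one : res P 1 = 1 := by
  rw [res_eq P P.one_mem]
  exact map_one _

theorem res_zero : res P 0 = 0 := by
  rw [res_eq P P.zero_mem]
  exact map_zero _

theorem res_pow {x : Qb} (hx : x ∈ P) (n : ℕ) : res P (x ^ n) = res P x ^ n := by
  rw [res_eq P hx, res_eq P (pow_mem hx n), ← map_pow]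
  rfl

theorem res_eq_zero_iff {x : Qb} (hx : x ∈ P) : res P x = 0 ↔ x ∈ P.nonunits := by
  rw [res_eq P hx, IsLocalRing.residue_eq_zero_iff, ← ValuationSubring.coe_mem_nonunits_iff]

theorem res_eq_iff {x y : Qb} (hx : x ∈ P) (hy : y ∈ P) :
    res P x = res P y ↔ x - y ∈ P.nonunits := by
  rw [← res_eq_zero_iff P (sub_mem hx hy), res_sub P hx hy, sub_eq_zero]

theorem res_surjective (a : IsLocalRing.ResidueField P) : ∃ x ∈ P, res P x = a := by
  obtain ⟨⟨x, hx⟩, rfl⟩ := IsLocalRing.residue_surjective a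
  exact ⟨x, hx, res_eq P hx⟩

end Val

/-! ### The field `F` and levels -/

/-- `F = Qb^{G_F}`: the elements fixed by every `σ` in the inertia group with `σ ϖ = ϖ`. -/
def fixF (P : ValuationSubring Qb) (ϖ : Qb) : Subfield Qb where
  carrier := {x | ∀ σ ∈ P.inertiaSubgroupIn ℚ, σ ϖ = ϖ → σ x = x}
  mul_mem' := fun hx hy σ hσ h => by rw [map_mul, hx σ hσ h, hy σ hσ h]
  one_mem' := fun σ _ _ => map_one σ
  add_mem' := fun hx hy σ hσ h => by rw [map_add, hx σ hσ h, hy σ hσ h]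
  zero_mem' := fun σ _ _ => map_zero σ
  neg_mem' := fun hx σ hσ h => by rw [map_neg, hx σ hσ h]
  inv_mem' := fun x hx σ hσ h => by rw [map_inv₀, hx σ hσ h]

theorem mem_fixF {P : ValuationSubring Qb} {ϖ x : Qb} :
    x ∈ fixF P ϖ ↔ ∀ σ ∈ P.inertiaSubgroupIn ℚ, σ ϖ = ϖ → σ x = x := Iff.rfl

theorem varpi_mem_fixF (P : ValuationSubring Qb) (ϖ : Qb) : ϖ ∈ fixF P ϖ := fun _ _ h => h

theorem mem_fixF_of_inertia {P : ValuationSubring Qb} {ϖ x : Qb}
    (h : ∀ σ ∈ P.inertiaSubgroupIn ℚ, σ x = x) : x ∈ fixF P ϖ := fun σ hσ _ => h σ hσ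

/-- `u ∈ 1 + ϖ^j O_F`. -/
def LevGE (P : ValuationSubring Qb) (ϖ : Qb) (j : ℕ) (u : Qb) : Prop :=
  u ∈ fixF P ϖ ∧ (u - 1) / ϖ ^ j ∈ P

/-- The leading coefficient `(u − 1)/ϖ^j mod 𝔪` (meaningful when `(u − 1)/ϖ^j ∈ P`). -/
noncomputable def lc (P : ValuationSubring Qb) (ϖ : Qb) (j : ℕ) (u : Qb) :
    IsLocalRing.ResidueField P :=
  res P ((u - 1) / ϖ ^ j)

theorem lc_def (P : ValuationSubring Qb) (ϖ : Qb) (j : ℕ) (u : Qb) :
    lc P ϖ j u = res P ((u - 1) / ϖ ^ j) := rfl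

/-! ### The setting: `ϖ^(p²−1) = −p` -/

/-- The standing hypotheses of the supersingular level calculus. -/
structure Setting (p : ℕ) (P : ValuationSubring Qb) (ϖ : Qb) : Prop where
  prime : p.Prime
  ne_two : p ≠ 2
  lies : P.LiesOverPrime p
  pow : ϖ ^ (p ^ 2 - 1) = -(p : Qb)

namespace Setting

variable {p : ℕ} {P : ValuationSubring Qb} {ϖ : Qb} (S : Setting p P ϖ)

include S

theorem three_le : 3 ≤ p := by
  have h2 := S.prime.two_le
  have h3 := S.ne_two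
  omega

theorem sq_eq : p ^ 2 - 1 + 1 = p * p := by
  have h2 := S.prime.two_le
  have h4 : 4 ≤ p * p := Nat.mul_le_mul h2 h2
  rw [sq]
  omega

theorem e_pos : 0 < p ^ 2 - 1 := by
  have h2 := S.prime.two_le
  have h4 : 4 ≤ p * p := Nat.mul_le_mul h2 h2
  rw [sq]
  omega

theorem not_dvd_e : ¬ p ∣ p ^ 2 - 1 := by
  intro h
  have h1 : p ∣ p * p := dvd_mul_right p p
  have h2 : p ∣ p * p - (p ^ 2 - 1) := Nat.dvd_sub h1 h
  have h3 : p * p - (p ^ 2 - 1) = 1 := by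
    have := S.sq_eq
    omega
  rw [h3] at h2
  exact S.prime.one_lt.ne' (Nat.dvd_one.mp h2)

theorem varpi_ne_zero : ϖ ≠ 0 := by
  rintro rfl
  have h := S.pow
  rw [zero_pow S.e_pos.ne'] at h
  have h' : (p : Qb) = 0 := by
    rw [← neg_eq_zero, ← h]
  exact Nat.cast_ne_zero.mpr S.prime.ne_zero h'

theorem p_eq : (p : Qb) = -ϖ ^ (p ^ 2 - 1) := by
  rw [S.pow, neg_neg]

theorem val_p : P.valuation (p : Qb) = P.valuation ϖ ^ (p ^ 2 - 1) := by
  rw [S.p_eq, Valuation.map_neg, map_pow]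

theorem val_varpi_lt_one : P.valuation ϖ < 1 := by
  by_contra h
  rw [not_lt] at h
  have h1 : (1 : P.ValueGroup) ≤ P.valuation ϖ ^ (p ^ 2 - 1) := one_le_pow₀ h
  rw [← S.val_p] at h1
  have h2 : P.valuation (p : Qb) < 1 := P.mem_nonunits_iff.mp S.lies
  exact absurd h2 (not_lt.mpr h1)

theorem val_varpi_pos : 0 < P.valuation ϖ := val_pos P S.varpi_ne_zero

theorem varpi_mem_nonunits : ϖ ∈ P.nonunits := P.mem_nonunits_iff.mpr S.val_varpi_lt_one

theorem varpi_mem : ϖ ∈ P := nonunits_subset P S.varpi_mem_nonunits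

theorem val_pow_le {m n : ℕ} (h : m ≤ n) : P.valuation ϖ ^ n ≤ P.valuation ϖ ^ m :=
  pow_le_pow_of_le_one S.val_varpi_pos.le S.val_varpi_lt_one.le h

theorem val_pow_lt {m n : ℕ} (h : m < n) : P.valuation ϖ ^ n < P.valuation ϖ ^ m :=
  pow_lt_pow_right_of_lt_one₀ S.val_varpi_pos S.val_varpi_lt_one h

theorem val_pow_le_iff {m n : ℕ} : P.valuation ϖ ^ n ≤ P.valuation ϖ ^ m ↔ m ≤ n := by
  constructor
  · intro h
    by_contra hmn
    rw [not_le] at hmn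
    exact absurd (S.val_pow_lt hmn) (not_lt.mpr h)
  · exact S.val_pow_le

theorem val_pow_lt_one {n : ℕ} (h : 1 ≤ n) : P.valuation ϖ ^ n < 1 := by
  have := S.val_pow_lt (m := 0) (n := n) (by omega)
  rwa [pow_zero] at this

theorem pow_mem_nonunits {n : ℕ} (h : 1 ≤ n) : ϖ ^ n ∈ P.nonunits := by
  rw [P.mem_nonunits_iff, map_pow]
  exact S.val_pow_lt_one h

/-- Membership in `ϖ^j P` in terms of valuations. -/
theorem div_mem_iff (x : Qb) (j : ℕ) : x / ϖ ^ j ∈ P ↔ P.valuation x ≤ P.valuation ϖ ^ j :=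
  div_pow_mem_iff P S.varpi_ne_zero x j

theorem div_mem_nonunits_iff (x : Qb) (j : ℕ) :
    x / ϖ ^ j ∈ P.nonunits ↔ P.valuation x < P.valuation ϖ ^ j :=
  div_pow_mem_nonunits_iff P S.varpi_ne_zero x j

theorem div_mem_of_le {x : Qb} {i j : ℕ} (h : x / ϖ ^ j ∈ P) (hij : i ≤ j) : x / ϖ ^ i ∈ P := by
  rw [S.div_mem_iff] at h ⊢
  exact h.trans (S.val_pow_le hij)

theorem div_mem_nonunits_of_lt {x : Qb} {i j : ℕ} (h : x / ϖ ^ j ∈ P) (hij : i < j) :
    x / ϖ ^ i ∈ P.nonunits := by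
  rw [S.div_mem_iff] at h
  rw [S.div_mem_nonunits_iff]
  exact lt_of_le_of_lt h (S.val_pow_lt hij)

/-- A fixed element of `F` which is integral has the valuation of a power of `ϖ`. -/
theorem exists_val_eq_pow (hFVal : Loc.FVal) {x : Qb} (hx0 : x ≠ 0) (hx : x ∈ fixF P ϖ)
    (hxP : x ∈ P) : ∃ n : ℕ, P.valuation x = P.valuation ϖ ^ n := by
  have : Fact p.Prime := ⟨S.prime⟩
  obtain ⟨m, hm⟩ := hFVal p P S.lies (p ^ 2 - 1) S.e_pos S.not_dvd_e ϖ S.pow x hx0 hx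
  rw [isPUnit_iff_val, map_div₀, map_zpow₀,
    div_eq_one_iff_eq (zpow_ne_zero _ S.val_varpi_pos.ne')] at hm
  rcases le_or_gt 0 m with h | h
  · refine ⟨m.toNat, ?_⟩
    rw [hm, ← zpow_natCast, Int.toNat_of_nonneg h]
  · exfalso
    have hxP' : P.valuation x ≤ 1 := (P.valuation_le_one_iff x).mpr hxP
    obtain ⟨n, hn⟩ : ∃ n : ℕ, m = -((n : ℤ) + 1) := ⟨(-m - 1).toNat, by omega⟩
    rw [hm, hn, zpow_neg, ← Nat.cast_succ, zpow_natCast] at hxP'
    have h1 : P.valuation ϖ ^ (n + 1) < 1 := S.val_pow_lt_one (by omega)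
    have h2 : 0 < P.valuation ϖ ^ (n + 1) := pow_pos S.val_varpi_pos _
    rw [inv_le_one₀ h2] at hxP'
    exact absurd h1 (not_lt.mpr hxP')

/-- A non-unit of `O_F` is divisible by `ϖ`. -/
theorem div_varpi_mem (hFVal : Loc.FVal) {x : Qb} (hx : x ∈ fixF P ϖ) (hxm : x ∈ P.nonunits) :
    x / ϖ ∈ P := by
  by_cases hx0 : x = 0
  · rw [hx0, zero_div]
    exact P.zero_mem
  obtain ⟨n, hn⟩ := S.exists_val_eq_pow hFVal hx0 hx (nonunits_subset P hxm)
  have hn1 : 1 ≤ n := by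
    by_contra h
    have h0 : n = 0 := by omega
    rw [h0, pow_zero] at hn
    rw [P.mem_nonunits_iff, hn] at hxm
    exact lt_irrefl _ hxm
  have := (S.div_mem_iff x 1).mpr (by rw [hn]; exact S.val_pow_le hn1)
  rwa [pow_one] at this

end Setting

/-! ### Levels -/

section Lev

variable {p : ℕ} {P : ValuationSubring Qb} {ϖ : Qb} (S : Setting p P ϖ)

include S

theorem LevGE.mem {j : ℕ} {u : Qb} (h : LevGE P ϖ j u) : u ∈ P := by
  have e : u = 1 + ϖ ^ j * ((u - 1) / ϖ ^ j) := by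
    have := pow_ne_zero j S.varpi_ne_zero
    field_simp
    ring
  rw [e]
  exact P.add_mem _ _ P.one_mem (P.mul_mem _ _ (pow_mem S.varpi_mem j) h.2)

theorem sub_one_mem_nonunits {j : ℕ} (hj : 1 ≤ j) {u : Qb} (h : (u - 1) / ϖ ^ j ∈ P) :
    u - 1 ∈ P.nonunits := by
  have e : u - 1 = ϖ ^ j * ((u - 1) / ϖ ^ j) := by
    have := pow_ne_zero j S.varpi_ne_zero
    field_simp
  rw [e]
  exact mul_mem_nonunits_left P (S.pow_mem_nonunits hj) h

theorem LevGE.isPUnit {j : ℕ} (hj : 1 ≤ j) {u : Qb} (h : LevGE P ϖ j u) : IsPUnit P u :=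
  isPUnit_of_sub_one_mem_nonunits P (sub_one_mem_nonunits S hj h.2)

theorem levGE_one (j : ℕ) : LevGE P ϖ j 1 := by
  refine ⟨one_mem _, ?_⟩
  rw [sub_self, zero_div]
  exact P.zero_mem

theorem LevGE.mono {i j : ℕ} {u : Qb} (h : LevGE P ϖ j u) (hij : i ≤ j) : LevGE P ϖ i u :=
  ⟨h.1, S.div_mem_of_le h.2 hij⟩

theorem LevGE.mul {j : ℕ} {u u' : Qb} (h : LevGE P ϖ j u) (h' : LevGE P ϖ j u') :
    LevGE P ϖ j (u * u') := by
  refine ⟨mul_mem h.1 h'.1, ?_⟩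
  have e : (u * u' - 1) / ϖ ^ j = (u - 1) / ϖ ^ j * u' + (u' - 1) / ϖ ^ j := by
    have := pow_ne_zero j S.varpi_ne_zero
    field_simp
    ring
  rw [e]
  exact P.add_mem _ _ (P.mul_mem _ _ h.2 (h'.mem S)) h'.2

theorem LevGE.inv {j : ℕ} (hj : 1 ≤ j) {u : Qb} (h : LevGE P ϖ j u) : LevGE P ϖ j u⁻¹ := by
  refine ⟨inv_mem h.1, ?_⟩
  obtain ⟨h0, _, hinv⟩ := h.isPUnit S hj
  have e : (u⁻¹ - 1) / ϖ ^ j = -((u - 1) / ϖ ^ j * u⁻¹) := by
    have := pow_ne_zero j S.varpi_ne_zero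
    field_simp
    ring
  rw [e]
  exact P.neg_mem _ (P.mul_mem _ _ h.2 hinv)

theorem LevGE.div {j : ℕ} (hj : 1 ≤ j) {u u' : Qb} (h : LevGE P ϖ j u) (h' : LevGE P ϖ j u') :
    LevGE P ϖ j (u / u') := by
  rw [div_eq_mul_inv]
  exact h.mul S (h'.inv S hj)

theorem LevGE.pow {j : ℕ} {u : Qb} (h : LevGE P ϖ j u) (n : ℕ) : LevGE P ϖ j (u ^ n) := by
  induction n with
  | zero => rw [pow_zero]; exact levGE_one S j
  | succ n ih => rw [pow_succ]; exact ih.mul S h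

/-- `lc` is additive on `1 + ϖ^j P`, `j ≥ 1`. -/
theorem lc_mul {j : ℕ} (hj : 1 ≤ j) {u u' : Qb} (h : (u - 1) / ϖ ^ j ∈ P)
    (h' : (u' - 1) / ϖ ^ j ∈ P) : lc P ϖ j (u * u') = lc P ϖ j u + lc P ϖ j u' := by
  have e : (u * u' - 1) / ϖ ^ j = (u - 1) / ϖ ^ j * u' + (u' - 1) / ϖ ^ j := by
    have := pow_ne_zero j S.varpi_ne_zero
    field_simp
    ring
  have hu' : u' ∈ P := by
    have e' : u' = 1 + (u' - 1) := by ring
    rw [e']
    exact P.add_mem _ _ P.one_mem (nonunits_subset P (sub_one_mem_nonunits S hj h'))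
  have h1 : res P u' = 1 := by
    rw [← res_one P, res_eq_iff P hu' P.one_mem]
    exact sub_one_mem_nonunits S hj h'
  rw [lc_def, lc_def, lc_def, e, res_add P (P.mul_mem _ _ h hu') h', res_mul P h hu', h1, mul_one]

theorem lc_one (j : ℕ) : lc P ϖ j 1 = 0 := by
  rw [lc_def, sub_self, zero_div, res_zero]

theorem lc_inv {j : ℕ} (hj : 1 ≤ j) {u : Qb} (h : (u - 1) / ϖ ^ j ∈ P) :
    lc P ϖ j u⁻¹ = -lc P ϖ j u := by
  have hu := isPUnit_of_sub_one_mem_nonunits P (sub_one_mem_nonunits S hj h)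
  obtain ⟨h0, _, hinv⟩ := hu
  have h' : (u⁻¹ - 1) / ϖ ^ j ∈ P := by
    have e : (u⁻¹ - 1) / ϖ ^ j = -((u - 1) / ϖ ^ j * u⁻¹) := by
      have := pow_ne_zero j S.varpi_ne_zero
      field_simp
      ring
    rw [e]
    exact P.neg_mem _ (P.mul_mem _ _ h hinv)
  have h2 := lc_mul S hj h h'
  rw [mul_inv_cancel₀ h0, lc_one S] at h2
  exact eq_neg_of_add_eq_zero_right h2.symm

theorem lc_div {j : ℕ} (hj : 1 ≤ j) {u u' : Qb} (h : (u - 1) / ϖ ^ j ∈ P)
    (h' : (u' - 1) / ϖ ^ j ∈ P) : lc P ϖ j (u / u') = lc P ϖ j u - lc P ϖ j u' := by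
  have hu := isPUnit_of_sub_one_mem_nonunits P (sub_one_mem_nonunits S hj h')
  obtain ⟨h0, _, hinv⟩ := hu
  have h'' : (u'⁻¹ - 1) / ϖ ^ j ∈ P := by
    have e : (u'⁻¹ - 1) / ϖ ^ j = -((u' - 1) / ϖ ^ j * u'⁻¹) := by
      have := pow_ne_zero j S.varpi_ne_zero
      field_simp
      ring
    rw [e]
    exact P.neg_mem _ (P.mul_mem _ _ h' hinv)
  rw [div_eq_mul_inv, lc_mul S hj h h'', lc_inv S hj h', sub_eq_add_neg]

/-- `lc j u = 0` iff `u` has level `≥ j + 1` (for `u ∈ F` of level `≥ j`). -/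
theorem lc_eq_zero_iff (hFVal : Loc.FVal) {j : ℕ} {u : Qb} (h : LevGE P ϖ j u) :
    lc P ϖ j u = 0 ↔ LevGE P ϖ (j + 1) u := by
  rw [lc_def, res_eq_zero_iff P h.2]
  constructor
  · intro hm
    refine ⟨h.1, ?_⟩
    have hF : (u - 1) / ϖ ^ j ∈ fixF P ϖ :=
      div_mem (sub_mem h.1 (one_mem _)) (pow_mem (varpi_mem_fixF P ϖ) j)
    have := S.div_varpi_mem hFVal hF hm
    rwa [div_div, ← pow_succ] at this
  · intro h'
    exact S.div_mem_nonunits_of_lt h'.2 (Nat.lt_succ_self j)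

end Lev

end Fermat.Agent.TW.Flat.SSLev
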