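/-
TW-FLAT / FLAT-SS-COUNT (row 335), part (S3) (helper33): `p`-th powers and levels.

* `val_binom`, `val_binom'` : the binomial estimates for `(1 + t)^p`;
* `exists_fixed_lift` : Teichmüller lifts (an inertia-fixed element in every residue class);
* `k3` : for `y ∈ F`, `p ∤ j`, `j < p² + p`: `y^p ≡ 1 mod ϖ^j ⟹ y^p ≡ 1 mod ϖ^(j+1)`;
* `k4` : for `i ≤ p` a unit of level `≥ p·i` is a `p`-th power times a unit of level `≥ p·i + 1`;
* `k4'` : the same at level `p² + p` (Artin–Schreier).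
-/
import Mathlib
import Fermat.Agent.TW.Flat.SSLev.Basic

set_option autoImplicit false
set_option linter.unusedSectionVars false

namespace Fermat.Agent.TW.Flat.SSLev

open Fermat.Agent.TW.Flat

local notation "Qb" => AlgebraicClosure ℚ

variable {p : ℕ} {P : ValuationSubring Qb} {ϖ : Qb} (S : Setting p P ϖ)

include S

theorem val_natCast_le_one (n : ℕ) : P.valuation (n : Qb) ≤ 1 :=
  (P.valuation_le_one_iff _).mpr (natCast_mem P n)

/-- `(1 + t)^p ≡ 1 + t^p + p t` modulo `p t² P`. -/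
theorem val_binom' {t : Qb} (ht : t ∈ P) :
    P.valuation ((1 + t) ^ p - 1 - t ^ p - p * t) ≤
      P.valuation (p : Qb) * P.valuation t ^ 2 := by
  have hp := S.prime
  have htv : P.valuation t ≤ 1 := (P.valuation_le_one_iff t).mpr ht
  have h := add_pow_prime_eq hp (1 : Qb) t
  have hmem : p - 1 ∈ Finset.Ioo 0 p := by
    rw [Finset.mem_Ioo]
    have := hp.two_le
    omega
  rw [← Finset.add_sum_erase _ _ hmem] at h
  have h1 : (1 : Qb) ^ (p - 1 - 1) * t ^ (p - (p - 1) - 1) * ((p.choose (p - 1) / p : ℕ) : Qb) = 1 := by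
    have e1 : p - (p - 1) - 1 = 0 := by
      have := hp.two_le
      omega
    have e2 : p.choose (p - 1) = p := by
      rw [Nat.choose_symm hp.one_le, Nat.choose_one_right]
    rw [e1, e2, Nat.div_self hp.pos, one_pow, pow_zero, Nat.cast_one, mul_one, mul_one]
  rw [h1] at h
  have e : (1 + t) ^ p - 1 - t ^ p - p * t =
      p * t * ∑ k ∈ (Finset.Ioo 0 p).erase (p - 1),
        (1 : Qb) ^ (k - 1) * t ^ (p - k - 1) * ((p.choose k / p : ℕ) : Qb) := by
    rw [h]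
    ring
  rw [e, map_mul, map_mul, sq, ← mul_assoc]
  refine mul_le_mul' le_rfl ?_
  refine Valuation.map_sum_le _ fun k hk => ?_
  rw [Finset.mem_erase, Finset.mem_Ioo] at hk
  have hk1 : 1 ≤ p - k - 1 := by omega
  rw [map_mul, map_mul, one_pow, map_one, one_mul, map_pow]
  calc P.valuation t ^ (p - k - 1) * P.valuation ((p.choose k / p : ℕ) : Qb)
      ≤ P.valuation t ^ (p - k - 1) * 1 := mul_le_mul' le_rfl (val_natCast_le_one S _)
    _ = P.valuation t ^ (p - k - 1) := mul_one _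
    _ ≤ P.valuation t ^ 1 := pow_le_pow_of_le_one zero_le htv hk1
    _ = P.valuation t := pow_one _

/-- `(1 + t)^p ≡ 1 + t^p` modulo `p t P`. -/
theorem val_binom {t : Qb} (ht : t ∈ P) :
    P.valuation ((1 + t) ^ p - 1 - t ^ p) ≤ P.valuation (p : Qb) * P.valuation t := by
  have htv : P.valuation t ≤ 1 := (P.valuation_le_one_iff t).mpr ht
  have e : (1 + t) ^ p - 1 - t ^ p = ((1 + t) ^ p - 1 - t ^ p - p * t) + p * t := by ring
  rw [e]
  refine (P.valuation.map_add _ _).trans (max_le ((val_binom' S ht).trans ?_) ?_)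
  · refine mul_le_mul' le_rfl ?_
    calc P.valuation t ^ 2 ≤ P.valuation t ^ 1 := pow_le_pow_of_le_one zero_le htv (by omega)
      _ = P.valuation t := pow_one _
  · rw [map_mul]

/-- A root of unity is a unit of `P`. -/
theorem isPUnit_of_pow_eq_one {ζ : Qb} {m : ℕ} (hm : 0 < m) (hζ : ζ ^ m = 1) : IsPUnit P ζ := by
  rw [isPUnit_iff_val]
  have h : P.valuation ζ ^ m = 1 := by rw [← map_pow, hζ, map_one]
  exact (pow_eq_one_iff.mp h).resolve_right hm.ne'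

theorem isPUnit_of_pow {z : Qb} {n : ℕ} (hn : n ≠ 0) (h : IsPUnit P (z ^ n)) : IsPUnit P z := by
  rw [isPUnit_iff_val] at h ⊢
  rw [map_pow] at h
  exact (pow_eq_one_iff.mp h).resolve_right hn

/-- Teichmüller lifts: every residue class of `P` contains an inertia-fixed element. -/
theorem exists_fixed_lift (hTeich : Loc.Teich) (hFix : Loc.RootFix) {β : Qb} (hβ : β ∈ P) :
    ∃ b ∈ P, (∀ σ ∈ P.inertiaSubgroupIn ℚ, σ b = b) ∧ b - β ∈ P.nonunits := by
  have : Fact p.Prime := ⟨S.prime⟩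
  by_cases hm : β ∈ P.nonunits
  · refine ⟨0, P.zero_mem, fun σ _ => map_zero σ, ?_⟩
    rw [zero_sub]
    exact neg_mem_nonunits P hm
  · have hU : IsPUnit P β := isPUnit_of_mem_of_not_mem_nonunits P hβ hm
    obtain ⟨ζ, m, hm0, hpm, hζ, hβζ⟩ := hTeich p P S.lies β hU
    refine ⟨ζ, (isPUnit_of_pow_eq_one S hm0 hζ).2.1, fun σ hσ => hFix p P S.lies ζ m hm0 hpm hζ σ hσ,
      ?_⟩
    have e : ζ - β = -(β - ζ) := by ring
    rw [e]
    exact neg_mem_nonunits P hβζ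

/-- (K3) For `y ∈ F`, `p ∤ j`, `j < p² + p`: if `y^p ≡ 1 mod ϖ^j` then `y^p ≡ 1 mod ϖ^(j+1)`. -/
theorem k3 (hTeich : Loc.Teich) (hInj : Loc.RootInj) (hFVal : Loc.FVal) {y : Qb}
    (hy : y ∈ fixF P ϖ) {j : ℕ} (hj : ¬ p ∣ j) (hj2 : j < p ^ 2 + p)
    (h : (y ^ p - 1) / ϖ ^ j ∈ P) : (y ^ p - 1) / ϖ ^ j ∈ P.nonunits := by
  have : Fact p.Prime := ⟨S.prime⟩
  have hp := S.prime
  have hj1 : 1 ≤ j := by
    rcases Nat.eq_zero_or_pos j with h0 | h0
    · exact absurd (h0 ▸ dvd_zero p) hj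
    · exact h0
  have hyp1 : y ^ p - 1 ∈ P.nonunits := sub_one_mem_nonunits S hj1 h
  have hypU : IsPUnit P (y ^ p) := isPUnit_of_sub_one_mem_nonunits P hyp1
  have hyU : IsPUnit P y := isPUnit_of_pow S hp.ne_zero hypU
  obtain ⟨ζ, m, hm0, hpm, hζ, hyζ⟩ := hTeich p P S.lies y hyU
  have hζU : IsPUnit P ζ := isPUnit_of_pow_eq_one S hm0 hζ
  have h1 : y ^ p - ζ ^ p ∈ P.nonunits := by
    rw [← res_eq_iff P (pow_mem hyU.2.1 p) (pow_mem hζU.2.1 p), res_pow P hyU.2.1,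
      res_pow P hζU.2.1, (res_eq_iff P hyU.2.1 hζU.2.1).mpr hyζ]
  have h2 : ζ ^ p - 1 ∈ P.nonunits := by
    have e : ζ ^ p - 1 = (y ^ p - 1) - (y ^ p - ζ ^ p) := by ring
    rw [e]
    exact sub_mem_nonunits P hyp1 h1
  have hζp : ζ ^ p = 1 :=
    hInj p P S.lies (ζ ^ p) 1 m hm0 hpm (by rw [← pow_mul, mul_comm, pow_mul, hζ, one_pow])
      (one_pow m) h2
  have hζ1 : ζ = 1 := by
    have hcop : Nat.Coprime p m := (Nat.Prime.coprime_iff_not_dvd hp).mpr hpm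
    have h3 : ζ ^ Nat.gcd p m = 1 := pow_gcd_eq_one.mpr ⟨hζp, hζ⟩
    rwa [hcop.gcd_eq_one, pow_one] at h3
  rw [hζ1] at hyζ
  by_cases hy1 : y = 1
  · rw [hy1, one_pow, sub_self, zero_div]
    exact zero_mem_nonunits P
  have hy1F : y - 1 ∈ fixF P ϖ := sub_mem hy (one_mem _)
  have hy1P : y - 1 ∈ P := nonunits_subset P hyζ
  obtain ⟨i, hi⟩ := S.exists_val_eq_pow hFVal (sub_ne_zero.mpr hy1) hy1F hy1P
  have hb := val_binom S hy1P
  have e1 : (1 + (y - 1)) ^ p - 1 - (y - 1) ^ p = y ^ p - 1 - (y - 1) ^ p := by ring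
  rw [e1, S.val_p, hi, ← pow_add] at hb
  have hv1 : P.valuation ((y - 1) ^ p) = P.valuation ϖ ^ (p * i) := by
    rw [map_pow, hi, ← pow_mul, mul_comm]
  have e : y ^ p - 1 = (y - 1) ^ p + (y ^ p - 1 - (y - 1) ^ p) := by ring
  rw [S.div_mem_nonunits_iff]
  rw [S.div_mem_iff] at h
  have hsq := S.sq_eq
  have hp2 := hp.two_le
  rcases Nat.lt_or_ge i (p + 1) with hip | hip
  · have hlt : p * i < p ^ 2 - 1 + i := by
      have h3 : (p - 1) * i ≤ (p - 1) * p := Nat.mul_le_mul_left _ (by omega)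
      rw [Nat.sub_one_mul, Nat.sub_one_mul] at h3
      have h4 : i ≤ p * i := Nat.le_mul_of_pos_left i hp.pos
      have h5 : p ≤ p * p := Nat.le_mul_self p
      omega
    have hv : P.valuation (y ^ p - 1) = P.valuation ϖ ^ (p * i) := by
      rw [e, Valuation.map_add_eq_of_lt_left, hv1]
      rw [hv1]
      exact lt_of_le_of_lt hb (S.val_pow_lt hlt)
    rw [hv] at h ⊢
    have hle : j ≤ p * i := S.val_pow_le_iff.mp h
    have hne : j ≠ p * i := fun h' => hj ⟨i, h'⟩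
    exact S.val_pow_lt (lt_of_le_of_ne hle hne)
  · have h6 : p ^ 2 + p ≤ p * i := by
      have := Nat.mul_le_mul_left p hip
      rw [mul_add, mul_one, ← sq] at this
      exact this
    have h1' : P.valuation ((y - 1) ^ p) ≤ P.valuation ϖ ^ (p ^ 2 + p) := by
      rw [hv1]
      exact S.val_pow_le h6
    have h2' : P.valuation (y ^ p - 1 - (y - 1) ^ p) ≤ P.valuation ϖ ^ (p ^ 2 + p) :=
      hb.trans (S.val_pow_le (by have := S.e_pos; omega))
    have h7 : P.valuation (y ^ p - 1) ≤ P.valuation ϖ ^ (p ^ 2 + p) := by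
      rw [e]
      exact (P.valuation.map_add _ _).trans (max_le h1' h2')
    exact lt_of_le_of_lt h7 (S.val_pow_lt hj2)

/-- If `u ≡ y^p mod ϖ^n` with `y` a unit of `O_F`, then `u / y^p` has level `≥ n`. -/
theorem levGE_div_pow {u y : Qb} {n : ℕ} (hy : IsPUnit P y) (hyF : y ∈ fixF P ϖ)
    (huF : u ∈ fixF P ϖ) (h : (u - y ^ p) / ϖ ^ n ∈ P) : LevGE P ϖ n (u / y ^ p) := by
  refine ⟨div_mem huF (pow_mem hyF p), ?_⟩
  have e : (u / y ^ p - 1) / ϖ ^ n = (u - y ^ p) / ϖ ^ n * (y ^ p)⁻¹ := by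
    have h1 := pow_ne_zero n S.varpi_ne_zero
    have h2 := pow_ne_zero p hy.1
    field_simp
  rw [e, ← inv_pow]
  exact P.mul_mem _ _ h (pow_mem hy.2.2 p)

/-- (K4) For `1 ≤ i ≤ p`, a unit `u ∈ 1 + ϖ^(p i) O_F` is `y^p` times a unit of level
`≥ p i + 1`, with `y ∈ 1 + ϖ^i O_F`. -/
theorem k4 (hTeich : Loc.Teich) (hFix : Loc.RootFix) (hFVal : Loc.FVal) {i : ℕ} (hi1 : 1 ≤ i)
    (hip : i ≤ p) {u : Qb} (hu : LevGE P ϖ (p * i) u) :
    ∃ y : Qb, LevGE P ϖ i y ∧ LevGE P ϖ (p * i + 1) (u / y ^ p) := by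
  have hp := S.prime
  have hϖ0 := S.varpi_ne_zero
  obtain ⟨a, ha⟩ : ∃ a : Qb, a = (u - 1) / ϖ ^ (p * i) := ⟨_, rfl⟩
  have haP : a ∈ P := ha ▸ hu.2
  have haF : a ∈ fixF P ϖ :=
    ha ▸ div_mem (sub_mem hu.1 (one_mem _)) (pow_mem (varpi_mem_fixF P ϖ) _)
  have hX : ϖ ^ (p * i) * a = u - 1 := by
    rw [ha]
    field_simp
  obtain ⟨β, hβ⟩ := IsAlgClosed.exists_pow_nat_eq a hp.pos
  have hβP : β ∈ P := by
    rw [← P.valuation_le_one_iff] at haP ⊢
    rw [← hβ, map_pow] at haP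
    exact (pow_le_one_iff hp.ne_zero).mp haP
  obtain ⟨b, hbP, hbI, hbβ⟩ := exists_fixed_lift S hTeich hFix hβP
  have hbF : b ∈ fixF P ϖ := mem_fixF_of_inertia hbI
  have hba : b ^ p - a ∈ P.nonunits := by
    rw [← hβ, ← res_eq_iff P (pow_mem hbP p) (pow_mem hβP p), res_pow P hbP, res_pow P hβP,
      (res_eq_iff P hbP hβP).mpr hbβ]
  have hdiv : (b ^ p - a) / ϖ ∈ P :=
    S.div_varpi_mem hFVal (sub_mem (pow_mem hbF p) haF) hba
  obtain ⟨t, ht⟩ : ∃ t : Qb, t = b * ϖ ^ i := ⟨_, rfl⟩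
  have htP : t ∈ P := ht ▸ P.mul_mem _ _ hbP (pow_mem S.varpi_mem i)
  have htp : t ^ p = b ^ p * ϖ ^ (p * i) := by
    rw [ht, mul_pow, ← pow_mul, mul_comm i p]
  have hyLev : LevGE P ϖ i (1 + t) := by
    refine ⟨add_mem (one_mem _) (ht ▸ mul_mem hbF (pow_mem (varpi_mem_fixF P ϖ) i)), ?_⟩
    have e : (1 + t - 1) / ϖ ^ i = b := by
      rw [ht]
      field_simp
      ring
    rw [e]
    exact hbP
  refine ⟨1 + t, hyLev, ?_⟩
  apply levGE_div_pow S (hyLev.isPUnit S hi1) hyLev.1 hu.1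
  rw [S.div_mem_iff]
  have hb := val_binom S htP
  have e : u - (1 + t) ^ p = -(ϖ ^ (p * i) * (b ^ p - a)) - ((1 + t) ^ p - 1 - t ^ p) := by
    linear_combination -hX - htp
  rw [e]
  refine (P.valuation.map_sub _ _).trans (max_le ?_ ?_)
  · rw [Valuation.map_neg, map_mul, map_pow, pow_succ]
    refine mul_le_mul' le_rfl ?_
    have h1 := (S.div_mem_iff (b ^ p - a) 1).mp (by rwa [pow_one])
    rwa [pow_one] at h1
  · refine hb.trans ?_
    rw [S.val_p, ht, map_mul, map_pow]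
    have hbv : P.valuation b ≤ 1 := (P.valuation_le_one_iff b).mpr hbP
    have hsq := S.sq_eq
    have hp2 := hp.two_le
    have hle : p * i + 1 ≤ p ^ 2 - 1 + i := by
      have h3 : (p - 1) * i ≤ (p - 1) * p := Nat.mul_le_mul_left _ hip
      rw [Nat.sub_one_mul, Nat.sub_one_mul] at h3
      have h4 : i ≤ p * i := Nat.le_mul_of_pos_left i hp.pos
      have h5 : p ≤ p * p := Nat.le_mul_self p
      omega
    calc P.valuation ϖ ^ (p ^ 2 - 1) * (P.valuation b * P.valuation ϖ ^ i)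
        ≤ P.valuation ϖ ^ (p ^ 2 - 1) * (1 * P.valuation ϖ ^ i) :=
          mul_le_mul' le_rfl (mul_le_mul' hbv le_rfl)
      _ = P.valuation ϖ ^ (p ^ 2 - 1 + i) := by rw [one_mul, pow_add]
      _ ≤ P.valuation ϖ ^ (p * i + 1) := S.val_pow_le hle

/-- (K4') A unit `u ∈ 1 + ϖ^(p²+p) O_F` is `y^p` times a unit of level `≥ p² + p + 1`, with
`y ∈ 1 + ϖ^(p+1) O_F` (Artin–Schreier). -/
theorem k4' (hTeich : Loc.Teich) (hFix : Loc.RootFix) (hFVal : Loc.FVal) {u : Qb}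
    (hu : LevGE P ϖ (p ^ 2 + p) u) :
    ∃ y : Qb, LevGE P ϖ (p + 1) y ∧ LevGE P ϖ (p ^ 2 + p + 1) (u / y ^ p) := by
  have hp := S.prime
  have hϖ0 := S.varpi_ne_zero
  obtain ⟨a, ha⟩ : ∃ a : Qb, a = (u - 1) / ϖ ^ (p ^ 2 + p) := ⟨_, rfl⟩
  have haP : a ∈ P := ha ▸ hu.2
  have haF : a ∈ fixF P ϖ :=
    ha ▸ div_mem (sub_mem hu.1 (one_mem _)) (pow_mem (varpi_mem_fixF P ϖ) _)
  have hX : ϖ ^ (p ^ 2 + p) * a = u - 1 := by
    rw [ha]
    field_simp
  -- a root of `X^p − X − a`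
  obtain ⟨β, hβ⟩ : ∃ β : Qb, β ^ p - β = a := by
    have hdeg : (Polynomial.X ^ p - (Polynomial.X + Polynomial.C a) : Polynomial Qb).degree ≠ 0 := by
      rw [Polynomial.degree_sub_eq_left_of_degree_lt, Polynomial.degree_X_pow]
      · exact_mod_cast hp.ne_zero
      · rw [Polynomial.degree_X_pow, Polynomial.degree_X_add_C]
        exact_mod_cast hp.one_lt
    obtain ⟨β, hβ⟩ := IsAlgClosed.exists_root _ hdeg
    refine ⟨β, ?_⟩
    rw [Polynomial.IsRoot, Polynomial.eval_sub, Polynomial.eval_pow, Polynomial.eval_X,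
      Polynomial.eval_add, Polynomial.eval_X, Polynomial.eval_C] at hβ
    linear_combination hβ
  have hβP : β ∈ P := by
    by_contra hβP
    rw [← P.valuation_le_one_iff, not_le] at hβP
    have hav : P.valuation a ≤ 1 := (P.valuation_le_one_iff a).mpr haP
    have h1 : P.valuation (β ^ p) ≤ P.valuation β := by
      have e : β ^ p = β + a := by linear_combination hβ
      rw [e]
      exact (P.valuation.map_add _ _).trans (max_le le_rfl (hav.trans hβP.le))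
    rw [map_pow] at h1
    have h2 : P.valuation β < P.valuation β ^ p := lt_self_pow₀ hβP hp.one_lt
    exact absurd h2 (not_lt.mpr h1)
  obtain ⟨b, hbP, hbI, hbβ⟩ := exists_fixed_lift S hTeich hFix hβP
  have hbF : b ∈ fixF P ϖ := mem_fixF_of_inertia hbI
  have hba : b ^ p - b - a ∈ P.nonunits := by
    have e : b ^ p - b - a = (b ^ p - β ^ p) - (b - β) := by linear_combination hβ
    rw [e]
    refine sub_mem_nonunits P ?_ hbβ
    rw [← res_eq_iff P (pow_mem hbP p) (pow_mem hβP p), res_pow P hbP, res_pow P hβP,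
      (res_eq_iff P hbP hβP).mpr hbβ]
  have hdiv : (b ^ p - b - a) / ϖ ∈ P :=
    S.div_varpi_mem hFVal (sub_mem (sub_mem (pow_mem hbF p) hbF) haF) hba
  obtain ⟨t, ht⟩ : ∃ t : Qb, t = b * ϖ ^ (p + 1) := ⟨_, rfl⟩
  have htP : t ∈ P := ht ▸ P.mul_mem _ _ hbP (pow_mem S.varpi_mem _)
  have htp : t ^ p = b ^ p * ϖ ^ (p ^ 2 + p) := by
    rw [ht, mul_pow, ← pow_mul]
    congr 2
    ring
  have hsq := S.sq_eq
  have hpos := S.e_pos
  have hpt : (p : Qb) * t = -(b * ϖ ^ (p ^ 2 + p)) := by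
    have e : ϖ ^ (p ^ 2 + p) = ϖ ^ (p ^ 2 - 1) * ϖ ^ (p + 1) := by
      rw [← pow_add]
      congr 1
      omega
    rw [S.p_eq, ht, e]
    ring
  have hyLev : LevGE P ϖ (p + 1) (1 + t) := by
    refine ⟨add_mem (one_mem _) (ht ▸ mul_mem hbF (pow_mem (varpi_mem_fixF P ϖ) _)), ?_⟩
    have e : (1 + t - 1) / ϖ ^ (p + 1) = b := by
      rw [ht]
      field_simp
      ring
    rw [e]
    exact hbP
  refine ⟨1 + t, hyLev, ?_⟩
  apply levGE_div_pow S (hyLev.isPUnit S (by omega)) hyLev.1 hu.1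
  rw [S.div_mem_iff]
  have hb := val_binom' S htP
  have e : u - (1 + t) ^ p =
      -(ϖ ^ (p ^ 2 + p) * (b ^ p - b - a)) - ((1 + t) ^ p - 1 - t ^ p - p * t) := by
    linear_combination -hX - htp - hpt
  rw [e]
  refine (P.valuation.map_sub _ _).trans (max_le ?_ ?_)
  · rw [Valuation.map_neg, map_mul, map_pow, pow_succ]
    refine mul_le_mul' le_rfl ?_
    have h1 := (S.div_mem_iff (b ^ p - b - a) 1).mp (by rwa [pow_one])
    rwa [pow_one] at h1
  · refine hb.trans ?_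
    rw [S.val_p, ht, map_mul, map_pow, mul_pow, ← pow_mul]
    have hbv : P.valuation b ^ 2 ≤ 1 := pow_le_one' ((P.valuation_le_one_iff b).mpr hbP) 2
    calc P.valuation ϖ ^ (p ^ 2 - 1) * (P.valuation b ^ 2 * P.valuation ϖ ^ ((p + 1) * 2))
        ≤ P.valuation ϖ ^ (p ^ 2 - 1) * (1 * P.valuation ϖ ^ ((p + 1) * 2)) :=
          mul_le_mul' le_rfl (mul_le_mul' hbv le_rfl)
      _ = P.valuation ϖ ^ (p ^ 2 - 1 + (p + 1) * 2) := by rw [one_mul, pow_add]
      _ ≤ P.valuation ϖ ^ (p ^ 2 + p + 1) := S.val_pow_le (by omega)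

end Fermat.Agent.TW.Flat.SSLev
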