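/-
TW-FLAT / FLAT-SS-COUNT (row 335), part (S3) (helper33): Galois action on levels.

* `cyclo_congr` : `ω(τ) ≡ ϑ(τ)^(p+1)`: for `τ ∈ I`, `τ ϖ = ξ ϖ`, `τ ζ = ζ^a`: `a ≡ ξ^(p+1) mod 𝔪`;
* `zeta_mem_fixF` : `G_F` fixes the `p`-th roots of unity;
* `k5` : every `p`-th root of a unit of level `≥ p² + p + 1` of `O_F` lies in `F`;
* `apply_mem_fixF` : the decomposition group preserves `F`;
* `LevGE.apply`, `lc_apply_inertia`, `lc_apply_frob` : equivariance of levels and of `lc`;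
* `lc_pow_eq_of_div_mem_fixF` : independence of the Kummer witness.
-/
import Mathlib
import Fermat.Agent.TW.Flat.SSLev.Roots

set_option autoImplicit false
set_option linter.unusedSectionVars false

namespace Fermat.Agent.TW.Flat.SSLev

open Fermat.Agent.TW.Flat

local notation "Qb" => AlgebraicClosure ℚ
local notation "GQ" => (AlgebraicClosure ℚ ≃ₐ[ℚ] AlgebraicClosure ℚ)

/-! ### Inertia and decomposition groups -/

theorem inertia_le_decomp {P : ValuationSubring Qb} {σ : GQ} (hσ : σ ∈ P.inertiaSubgroupIn ℚ) :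
    σ ∈ P.decompositionSubgroup ℚ := by
  obtain ⟨⟨τ, hτ⟩, _, rfl⟩ := Subgroup.mem_map.mp hσ
  exact hτ

/-- The inertia group is normal in the decomposition group. -/
theorem conj_mem_inertia {P : ValuationSubring Qb} {σ τ : GQ} (hσ : σ ∈ P.inertiaSubgroupIn ℚ)
    (hτ : τ ∈ P.decompositionSubgroup ℚ) : τ⁻¹ * σ * τ ∈ P.inertiaSubgroupIn ℚ := by
  obtain ⟨t, ht, rfl⟩ := hσ
  have hn : (P.inertiaSubgroup ℚ).Normal := by
    unfold ValuationSubring.inertiaSubgroup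
    exact MonoidHom.normal_ker _
  have h := hn.conj_mem t ht ⟨τ⁻¹, inv_mem hτ⟩
  refine Subgroup.mem_map.mpr ⟨_, h, ?_⟩
  simp

variable {p : ℕ} {P : ValuationSubring Qb} {ϖ : Qb} (S : Setting p P ϖ)

include S

theorem isPUnit_neg {z : Qb} (h : IsPUnit P z) : IsPUnit P (-z) := by
  rw [isPUnit_iff_val] at h ⊢
  rwa [Valuation.map_neg]

/-- A natural number lying in the maximal ideal is divisible by `p`. -/
theorem dvd_of_natCast_mem_nonunits {n : ℕ} (h : (n : Qb) ∈ P.nonunits) : p ∣ n := by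
  by_contra hn
  have hcop : Nat.Coprime p n := (Nat.Prime.coprime_iff_not_dvd S.prime).mpr hn
  have h1 : ((Nat.gcd p n : ℤ) : Qb) = (((p : ℤ) * Nat.gcdA p n + (n : ℤ) * Nat.gcdB p n : ℤ) : Qb) := by
    rw [← Nat.gcd_eq_gcd_ab]
  rw [hcop.gcd_eq_one] at h1
  push_cast at h1
  have hpm : (p : Qb) ∈ P.nonunits := S.lies
  have h2 : (1 : Qb) ∈ P.nonunits := by
    rw [h1]
    exact add_mem_nonunits P (mul_mem_nonunits_left P hpm (intCast_mem P _))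
      (mul_mem_nonunits_left P h (intCast_mem P _))
  rw [P.mem_nonunits_iff, map_one] at h2
  exact lt_irrefl _ h2

theorem pow_sub_one_mem_nonunits {ζ : Qb} (hζP : ζ ∈ P) (hζ : ζ - 1 ∈ P.nonunits) (n : ℕ) :
    ζ ^ n - 1 ∈ P.nonunits := by
  induction n with
  | zero =>
    rw [pow_zero, sub_self]
    exact zero_mem_nonunits P
  | succ n ih =>
    have e : ζ ^ (n + 1) - 1 = ζ ^ n * (ζ - 1) + (ζ ^ n - 1) := by ring
    rw [e]
    exact add_mem_nonunits P (mul_mem_nonunits_right P (pow_mem hζP n) hζ) ih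

theorem geom_sum_sub_mem_nonunits {ζ : Qb} (hζP : ζ ∈ P) (hζ : ζ - 1 ∈ P.nonunits) (n : ℕ) :
    (∑ i ∈ Finset.range n, ζ ^ i) - (n : Qb) ∈ P.nonunits := by
  induction n with
  | zero =>
    rw [Finset.sum_range_zero, Nat.cast_zero, sub_self]
    exact zero_mem_nonunits P
  | succ n ih =>
    have e : (∑ i ∈ Finset.range (n + 1), ζ ^ i) - ((n + 1 : ℕ) : Qb) =
        ((∑ i ∈ Finset.range n, ζ ^ i) - (n : Qb)) + (ζ ^ n - 1) := by
      rw [Finset.sum_range_succ]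
      push_cast
      ring
    rw [e]
    exact add_mem_nonunits P ih (pow_sub_one_mem_nonunits S hζP hζ n)

/-- If `τ ϖ = ξ ϖ` then `ξ^(p²−1) = 1`. -/
theorem xi_pow {τ : GQ} {ξ : Qb} (h : τ ϖ = ξ * ϖ) : ξ ^ (p ^ 2 - 1) = 1 := by
  have h1 : (τ ϖ) ^ (p ^ 2 - 1) = ϖ ^ (p ^ 2 - 1) := by
    rw [← map_pow, S.pow, map_neg, map_natCast]
  rw [h, mul_pow] at h1
  exact mul_right_cancel₀ (pow_ne_zero _ S.varpi_ne_zero) (by rw [h1, one_mul])

theorem xi_isPUnit {τ : GQ} {ξ : Qb} (h : τ ϖ = ξ * ϖ) : IsPUnit P ξ :=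
  isPUnit_of_pow_eq_one S S.e_pos (xi_pow S h)

theorem apply_varpi (τ : GQ) : τ ϖ = (τ ϖ / ϖ) * ϖ := by
  have := S.varpi_ne_zero
  field_simp

/-- The unit `x = (ζ − 1)/ϖ^(p+1)`. -/
theorem isPUnit_zeta_sub_one_div (hZeta : Loc.ZetaUnit) {ζ : Qb} (hζ : ζ ^ p = 1) (hζ1 : ζ ≠ 1) :
    IsPUnit P ((ζ - 1) / ϖ ^ (p + 1)) := by
  have : Fact p.Prime := ⟨S.prime⟩
  have hp := S.prime
  have hU := hZeta p P S.lies ζ hζ hζ1
  have hp2 := hp.two_le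
  apply isPUnit_of_pow S (n := p - 1) (by omega)
  have hexp : (p + 1) * (p - 1) = p ^ 2 - 1 := by
    have h1 : (p + 1) * (p - 1) + (p + 1) = (p + 1) * p := by
      rw [← Nat.mul_succ]
      congr 1
      omega
    have h2 := S.sq_eq
    have h3 : (p + 1) * p = p * p + p := by ring
    omega
  have e : ((ζ - 1) / ϖ ^ (p + 1)) ^ (p - 1) = -((ζ - 1) ^ (p - 1) / p) := by
    rw [div_pow, ← pow_mul, hexp, S.p_eq, div_neg, neg_neg]
  rw [e]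
  exact isPUnit_neg S hU

/-- `ω(τ) ≡ ϑ(τ)^(p+1)`: if `τ ∈ I`, `τ ϖ = ξ ϖ` and `τ ζ = ζ^a` for a nontrivial `p`-th root of
unity `ζ`, then `a ≡ ξ^(p+1)` modulo the maximal ideal. -/
theorem cyclo_congr (hZeta : Loc.ZetaUnit) (hRes : Loc.InertiaRes) {ζ : Qb} (hζ : ζ ^ p = 1)
    (hζ1 : ζ ≠ 1) {τ : GQ} (hτ : τ ∈ P.inertiaSubgroupIn ℚ) {ξ : Qb} (hτϖ : τ ϖ = ξ * ϖ)
    {a : ℕ} (ha : τ ζ = ζ ^ a) : (a : Qb) - ξ ^ (p + 1) ∈ P.nonunits := by
  have hp := S.prime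
  have hϖ0 := S.varpi_ne_zero
  have hξU := xi_isPUnit S hτϖ
  have hxU := isPUnit_zeta_sub_one_div S hZeta hζ hζ1
  obtain ⟨x, hx⟩ : ∃ x : Qb, x = (ζ - 1) / ϖ ^ (p + 1) := ⟨_, rfl⟩
  rw [← hx] at hxU
  have hζ1' : ζ - 1 ∈ P.nonunits := by
    have e : ζ - 1 = ϖ ^ (p + 1) * x := by
      rw [hx]
      field_simp
    rw [e]
    exact mul_mem_nonunits_left P (S.pow_mem_nonunits (by omega)) hxU.2.1
  have hζP : ζ ∈ P := (isPUnit_of_pow_eq_one S hp.pos hζ).2.1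
  have hτx : τ x - x ∈ P.nonunits := hRes P τ hτ x hxU.2.1
  have hG := geom_sum_sub_mem_nonunits S hζP hζ1' a
  have hgeom : (∑ i ∈ Finset.range a, ζ ^ i) * (ζ - 1) = ζ ^ a - 1 := geom_sum_mul ζ a
  -- `ξ^(p+1) τ x = x · G_a`
  have hkey : ξ ^ (p + 1) * τ x = x * ∑ i ∈ Finset.range a, ζ ^ i := by
    rw [hx, map_div₀, map_sub, map_one, map_pow, hτϖ, ha, ← hgeom, mul_pow]
    have := hξU.1
    field_simp
  have e : x * ((a : Qb) - ξ ^ (p + 1)) =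
      ξ ^ (p + 1) * (τ x - x) - x * ((∑ i ∈ Finset.range a, ζ ^ i) - (a : Qb)) := by
    linear_combination -hkey
  have h1 : x * ((a : Qb) - ξ ^ (p + 1)) ∈ P.nonunits := by
    rw [e]
    exact sub_mem_nonunits P (mul_mem_nonunits_right P (pow_mem hξU.2.1 _) hτx)
      (mul_mem_nonunits_right P hxU.2.1 hG)
  rw [P.mem_nonunits_iff] at h1 ⊢
  rwa [map_mul, (isPUnit_iff_val P).mp hxU, one_mul] at h1

/-- (Z) `G_F` fixes the `p`-th roots of unity. -/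
theorem zeta_mem_fixF (hZeta : Loc.ZetaUnit) (hRes : Loc.InertiaRes) {ζ : Qb} (hζ : ζ ^ p = 1) :
    ζ ∈ fixF P ϖ := by
  have hp := S.prime
  have : Fact p.Prime := ⟨S.prime⟩
  by_cases h1 : ζ = 1
  · rw [h1]
    exact one_mem _
  intro σ hσ hσϖ
  have hprim : IsPrimitiveRoot ζ p := by
    have h2 := orderOf_eq_prime hζ h1
    rw [← h2]
    exact IsPrimitiveRoot.orderOf ζ
  have hσζ : (σ ζ) ^ p = 1 := by rw [← map_pow, hζ, map_one]
  have : NeZero p := ⟨hp.ne_zero⟩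
  obtain ⟨a, ha, haζ⟩ := hprim.eq_pow_of_pow_eq_one hσζ
  have hc := cyclo_congr S hZeta hRes hζ h1 hσ (ξ := 1) (by rw [one_mul, hσϖ]) haζ.symm
  rw [one_pow] at hc
  have ha1 : a = 1 := by
    rcases Nat.eq_zero_or_pos a with h0 | h0
    · exfalso
      rw [h0, Nat.cast_zero, zero_sub] at hc
      have h3 : IsPUnit P (-1 : Qb) := isPUnit_neg S (isPUnit_one P)
      rw [isPUnit_iff_val] at h3
      rw [P.mem_nonunits_iff, h3] at hc
      exact lt_irrefl _ hc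
    · have e : ((a - 1 : ℕ) : Qb) = (a : Qb) - 1 := by
        rw [Nat.cast_sub h0, Nat.cast_one]
      rw [← e] at hc
      have hdvd := dvd_of_natCast_mem_nonunits S hc
      have := Nat.eq_zero_of_dvd_of_lt hdvd (by omega)
      omega
  rw [← haζ, ha1, pow_one]

/-- (K5) Every `p`-th root of a unit of level `≥ p² + p + 1` of `O_F` lies in `F`. -/
theorem k5 (hClose : Loc.CloseRoot) (hZeta : Loc.ZetaUnit) (hRes : Loc.InertiaRes) {u z : Qb}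
    (hu : LevGE P ϖ (p ^ 2 + p + 1) u) (hz : z ^ p = u) : z ∈ fixF P ϖ := by
  have : Fact p.Prime := ⟨S.prime⟩
  have hp := S.prime
  have hp2 := hp.two_le
  have hϖ0 := S.varpi_ne_zero
  have hsq := S.sq_eq
  have hpos := S.e_pos
  have hc : ϖ ^ (p + 2) ∈ P := pow_mem S.varpi_mem _
  have hexp : (p + 2) * (p - 1) = p ^ 2 - 1 + (p - 1) := by
    have h1 : (p + 2) * (p - 1) + (p + 2) = (p + 2) * p := by
      rw [← Nat.mul_succ]
      congr 1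
      omega
    have h3 : (p + 2) * p = p * p + 2 * p := by ring
    omega
  have h1 : ∃ m ∈ P.nonunits, (ϖ ^ (p + 2)) ^ (p - 1) = p * m := by
    refine ⟨-ϖ ^ (p - 1), neg_mem_nonunits P (S.pow_mem_nonunits (by omega)), ?_⟩
    rw [← pow_mul, hexp, pow_add, S.p_eq]
    ring
  have h2 : ∃ t ∈ P, u - 1 = p * ϖ ^ (p + 2) * t := by
    refine ⟨-((u - 1) / ϖ ^ (p ^ 2 + p + 1)), P.neg_mem _ hu.2, ?_⟩
    have e : ϖ ^ (p ^ 2 + p + 1) = ϖ ^ (p ^ 2 - 1) * ϖ ^ (p + 2) := by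
      rw [← pow_add]
      congr 1
      omega
    rw [S.p_eq, e]
    field_simp
  obtain ⟨ζ, hζ, -, hfix⟩ := hClose p P S.lies (ϖ ^ (p + 2)) u z hc h1 h2 hz
  intro σ hσ hσϖ
  have h3 := hfix σ (inertia_le_decomp hσ) (hu.1 σ hσ hσϖ)
  have hζF := zeta_mem_fixF S hZeta hRes hζ σ hσ hσϖ
  rw [map_mul, hζF] at h3
  have hζ0 : ζ ≠ 0 := by
    rintro rfl
    rw [zero_pow hp.ne_zero] at hζ
    exact zero_ne_one hζ
  exact mul_left_cancel₀ hζ0 h3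

/-- The decomposition group preserves `F` (`G_F` is normal in `D`). -/
theorem apply_mem_fixF (hFix : Loc.RootFix) {τ : GQ} (hτ : τ ∈ P.decompositionSubgroup ℚ)
    {x : Qb} (hx : x ∈ fixF P ϖ) : τ x ∈ fixF P ϖ := by
  have : Fact p.Prime := ⟨S.prime⟩
  intro σ hσ hσϖ
  have hξ := xi_pow S (apply_varpi S τ)
  have hσξ : σ (τ ϖ / ϖ) = τ ϖ / ϖ :=
    hFix p P S.lies _ (p ^ 2 - 1) S.e_pos S.not_dvd_e hξ σ hσ
  have h1 : σ (τ ϖ) = τ ϖ := by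
    have e := apply_varpi S τ
    rw [e, map_mul, hσξ, hσϖ]
  have h2 : (τ⁻¹ * σ * τ) ϖ = ϖ := by
    rw [AlgEquiv.mul_apply, AlgEquiv.mul_apply, h1]
    exact AlgEquiv.symm_apply_apply τ ϖ
  have h3 := hx _ (conj_mem_inertia hσ hτ) h2
  rw [AlgEquiv.mul_apply, AlgEquiv.mul_apply] at h3
  have h4 := congrArg τ h3
  rwa [show τ (τ⁻¹ (σ (τ x))) = σ (τ x) from AlgEquiv.apply_symm_apply τ _] at h4

/-- `(τ u − 1)/ϖ^j = ξ^j · τ((u − 1)/ϖ^j)` when `τ ϖ = ξ ϖ`. -/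
theorem apply_level_eq {τ : GQ} {ξ : Qb} (hτϖ : τ ϖ = ξ * ϖ) (u : Qb) (j : ℕ) :
    (τ u - 1) / ϖ ^ j = ξ ^ j * τ ((u - 1) / ϖ ^ j) := by
  have h1 := (xi_isPUnit S hτϖ).1
  have h2 := S.varpi_ne_zero
  rw [map_div₀, map_sub, map_one, map_pow, hτϖ, mul_pow]
  field_simp

/-- The decomposition group preserves levels. -/
theorem LevGE.apply (hFix : Loc.RootFix) (hDec : Loc.DecompMem) {τ : GQ}
    (hτ : τ ∈ P.decompositionSubgroup ℚ) {j : ℕ} {u : Qb} (h : LevGE P ϖ j u) :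
    LevGE P ϖ j (τ u) := by
  refine ⟨apply_mem_fixF S hFix hτ h.1, ?_⟩
  rw [apply_level_eq S (apply_varpi S τ)]
  exact P.mul_mem _ _ (pow_mem (xi_isPUnit S (apply_varpi S τ)).2.1 j)
    ((hDec P τ hτ _).mpr h.2)

/-- Inertia acts on leading coefficients through `ϑ^j`: `lc j (τ u) = ξ̄^j · lc j u` for `τ ∈ I`,
`τ ϖ = ξ ϖ`. -/
theorem lc_apply_inertia (hRes : Loc.InertiaRes) (hDec : Loc.DecompMem) {τ : GQ}
    (hτ : τ ∈ P.inertiaSubgroupIn ℚ) {ξ : Qb} (hτϖ : τ ϖ = ξ * ϖ) {j : ℕ} {u : Qb}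
    (h : (u - 1) / ϖ ^ j ∈ P) : lc P ϖ j (τ u) = res P ξ ^ j * lc P ϖ j u := by
  have hξP := (xi_isPUnit S hτϖ).2.1
  have hτa : τ ((u - 1) / ϖ ^ j) ∈ P := (hDec P τ (inertia_le_decomp hτ) _).mpr h
  rw [lc_def, lc_def, apply_level_eq S hτϖ, res_mul P (pow_mem hξP j) hτa, res_pow P hξP,
    (res_eq_iff P hτa h).mpr (hRes P τ hτ _ h)]

/-- A Frobenius acts on leading coefficients by `lc j (φ u) = ξ̄^j · (lc j u)^p`, `φ ϖ = ξ ϖ`. -/
theorem lc_apply_frob (hDec : Loc.DecompMem) {φ : GQ} (hφ : φ ∈ P.decompositionSubgroup ℚ)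
    (hfrob : ∀ x ∈ P, φ x - x ^ p ∈ P.nonunits) {ξ : Qb} (hφϖ : φ ϖ = ξ * ϖ) {j : ℕ} {u : Qb}
    (h : (u - 1) / ϖ ^ j ∈ P) : lc P ϖ j (φ u) = res P ξ ^ j * lc P ϖ j u ^ p := by
  have hξP := (xi_isPUnit S hφϖ).2.1
  have hφa : φ ((u - 1) / ϖ ^ j) ∈ P := (hDec P φ hφ _).mpr h
  rw [lc_def, lc_def, apply_level_eq S hφϖ, res_mul P (pow_mem hξP j) hφa, res_pow P hξP,
    (res_eq_iff P hφa (pow_mem h p)).mpr (hfrob _ h), res_pow P h]

/-! ### Levels without the field `F` -/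

theorem level_mul {j : ℕ} {u u' : Qb} (h : (u - 1) / ϖ ^ j ∈ P) (h' : (u' - 1) / ϖ ^ j ∈ P) :
    (u * u' - 1) / ϖ ^ j ∈ P := by
  have e : (u * u' - 1) / ϖ ^ j = (u - 1) / ϖ ^ j * u' + (u' - 1) / ϖ ^ j := by
    have := pow_ne_zero j S.varpi_ne_zero
    field_simp
    ring
  have hu' : u' ∈ P := by
    have e' : u' = 1 + ϖ ^ j * ((u' - 1) / ϖ ^ j) := by
      have := pow_ne_zero j S.varpi_ne_zero
      field_simp
      ring
    rw [e']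
    exact P.add_mem _ _ P.one_mem (P.mul_mem _ _ (pow_mem S.varpi_mem j) h')
  rw [e]
  exact P.add_mem _ _ (P.mul_mem _ _ h hu') h'

theorem level_inv {j : ℕ} (hj : 1 ≤ j) {u : Qb} (h : (u - 1) / ϖ ^ j ∈ P) :
    (u⁻¹ - 1) / ϖ ^ j ∈ P := by
  obtain ⟨h0, _, hinv⟩ := isPUnit_of_sub_one_mem_nonunits P (sub_one_mem_nonunits S hj h)
  have e : (u⁻¹ - 1) / ϖ ^ j = -((u - 1) / ϖ ^ j * u⁻¹) := by
    have := pow_ne_zero j S.varpi_ne_zero
    field_simp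
    ring
  rw [e]
  exact P.neg_mem _ (P.mul_mem _ _ h hinv)

theorem level_div {j : ℕ} (hj : 1 ≤ j) {u u' : Qb} (h : (u - 1) / ϖ ^ j ∈ P)
    (h' : (u' - 1) / ϖ ^ j ∈ P) : (u / u' - 1) / ϖ ^ j ∈ P := by
  rw [div_eq_mul_inv]
  exact level_mul S h (level_inv S hj h')

/-- (W) Independence of the Kummer witness: if `z' / z ∈ F` and `z^p`, `z'^p` are `≡ 1 mod ϖ^j`
with `p ∤ j`, `j < p² + p`, then `z^p` and `z'^p` have the same leading coefficient at level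
`j`. -/
theorem lc_pow_eq_of_div_mem_fixF (hTeich : Loc.Teich) (hInj : Loc.RootInj) (hFVal : Loc.FVal)
    {z z' : Qb} {j : ℕ} (hj : ¬ p ∣ j) (hj2 : j < p ^ 2 + p) (h : (z ^ p - 1) / ϖ ^ j ∈ P)
    (h' : (z' ^ p - 1) / ϖ ^ j ∈ P) (hy : z' / z ∈ fixF P ϖ) :
    lc P ϖ j (z' ^ p) = lc P ϖ j (z ^ p) := by
  have hj1 : 1 ≤ j := by
    rcases Nat.eq_zero_or_pos j with h0 | h0
    · exact absurd (h0 ▸ dvd_zero p) hj
    · exact h0
  have hdiv : ((z' / z) ^ p - 1) / ϖ ^ j ∈ P := by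
    rw [div_pow]
    exact level_div S hj1 h' h
  have hk := k3 S hTeich hInj hFVal hy hj hj2 hdiv
  have h0 : lc P ϖ j ((z' / z) ^ p) = 0 := by
    rw [lc_def, res_eq_zero_iff P hdiv]
    exact hk
  rw [div_pow, lc_div S hj1 h' h, sub_eq_zero] at h0
  exact h0

/-- Elements with the same Kummer multipliers on `G_F` differ by an element of `F`. -/
theorem div_mem_fixF_of_same_char {z z' : Qb} (hz : z ≠ 0)
    (h : ∀ σ ∈ P.inertiaSubgroupIn ℚ, σ ϖ = ϖ → ∃ a : Qb, σ z = a * z ∧ σ z' = a * z') :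
    z' / z ∈ fixF P ϖ := by
  intro σ hσ hσϖ
  obtain ⟨a, h1, h2⟩ := h σ hσ hσϖ
  have ha : a ≠ 0 := by
    rintro rfl
    rw [zero_mul] at h1
    exact hz ((map_eq_zero σ).mp h1)
  rw [map_div₀, h1, h2]
  field_simp

end Fermat.Agent.TW.Flat.SSLev
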